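/-
S52 (the 3–5 switch), node [COP] (helper10), file 1: A PLACE OF AN EXTENSION OF `k(X)` ABOVE
`X = z`.  Mathlib only.  Prefix `s52c_`.

`k` a field, `Ω` a field, `j : k[X] →+* Ω` injective, `z : k`.
* `s52c_exists_place` : there is a valuation subring `A` of `Ω` containing `j (k[X])` with
  `v (j (X - z)) < 1` and `v (j q) = 1` whenever `q(z) ≠ 0`
  (a valuation ring dominating the local ring `k[X]_(X - z)`);
* `s52c_IsPlace j z A` : this property; for such `A`:
  `s52c_val_poly`     : `v (j q) = π ^ (rootMultiplicity z q)`, `π := v (j (X - z))`;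
  `s52c_val_lt_one_of_root` : `q(z) = 0 ⟹ v (j q) < 1`;
  `s52c_dvd_of_val_le`: `v (j q) ≤ π ^ n ⟹ (X - z) ^ n ∣ q`;
  `s52c_val_frac_le`  : `g, h ≠ 0`, `v (j g / j h) < 1 ⟹ v (j g / j h) ≤ π`.
-/
import Mathlib

set_option autoImplicit false

namespace Fermat.Agent.S52

open Polynomial IsLocalRing

section Place

variable {k : Type*} [Field k] {Ω : Type*} [Field Ω]

/-- `A` is a place of `Ω` above `X = z` (with respect to `j : k[X] →+* Ω`). -/
def s52c_IsPlace (j : k[X] →+* Ω) (z : k) (A : ValuationSubring Ω) : Prop :=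
  (∀ q : k[X], j q ∈ A) ∧ A.valuation (j (X - C z)) < 1 ∧
    ∀ q : k[X], q.eval z ≠ 0 → A.valuation (j q) = 1

/-- **existence of a place above `X = z`** -/
theorem s52c_exists_place (j : k[X] →+* Ω) (hj : Function.Injective j) (z : k) :
    ∃ A : ValuationSubring Ω, s52c_IsPlace j z A := by
  classical
  set P : Ideal k[X] := Ideal.span {X - C z} with hP
  have hprime : P.IsPrime :=
    (Ideal.span_singleton_prime (X_sub_C_ne_zero z)).mpr (prime_X_sub_C z)
  have hmem : ∀ q : k[X], q ∈ P ↔ q.eval z = 0 := by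
    intro q
    rw [hP, Ideal.mem_span_singleton, dvd_iff_isRoot, IsRoot.def]
  have hunit : ∀ y : P.primeCompl, IsUnit (j y) := by
    intro y
    apply IsUnit.mk0
    intro h0
    have h1 : (y : k[X]) = 0 := hj (h0.trans (map_zero j).symm)
    exact y.2 (h1 ▸ P.zero_mem)
  let f : Localization.AtPrime P →+* Ω := IsLocalization.lift (M := P.primeCompl) hunit
  have hf : ∀ q : k[X], f (algebraMap k[X] (Localization.AtPrime P) q) = j q :=
    fun q => IsLocalization.lift_eq hunit q
  obtain ⟨A, hA, hloc⟩ := IsLocalRing.exists_factor_valuationRing f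
  have hAmem : ∀ q : k[X], j q ∈ A := fun q => by
    rw [← hf q]; exact hA _
  -- units correspond
  have hiff : ∀ q : k[X], A.valuation (j q) = 1 ↔ q.eval z ≠ 0 := by
    intro q
    have h1 : IsUnit (algebraMap k[X] (Localization.AtPrime P) q) ↔ q ∈ P.primeCompl :=
      IsLocalization.AtPrime.isUnit_to_map_iff (Localization.AtPrime P) P q
    have h2 : q ∈ P.primeCompl ↔ q.eval z ≠ 0 := by
      show q ∉ P ↔ _
      rw [hmem q]
    have h3 : IsUnit (algebraMap k[X] (Localization.AtPrime P) q) ↔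
        IsUnit (f.codRestrict A.toSubring hA (algebraMap k[X] (Localization.AtPrime P) q)) :=
      ⟨fun h => h.map _, fun h => hloc.map_nonunit _ h⟩
    have h4 : IsUnit (f.codRestrict A.toSubring hA (algebraMap k[X] (Localization.AtPrime P) q)) ↔
        A.valuation (j q) = 1 := by
      rw [← hf q]
      exact A.valuation_eq_one_iff
        (f.codRestrict A.toSubring hA (algebraMap k[X] (Localization.AtPrime P) q))
    rw [← h4, ← h3, h1, h2]
  refine ⟨A, hAmem, ?_, fun q hq => (hiff q).mpr hq⟩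
  have hle : A.valuation (j (X - C z)) ≤ 1 := (A.valuation_le_one_iff _).mpr (hAmem _)
  refine lt_of_le_of_ne hle fun h1 => ?_
  have := (hiff (X - C z)).mp h1
  simp at this

variable {j : k[X] →+* Ω} {z : k} {A : ValuationSubring Ω}

theorem s52c_pi_pos (hj : Function.Injective j) : 0 < A.valuation (j (X - C z)) := by
  rw [zero_lt_iff, Ne, Valuation.zero_iff]
  intro h0
  exact X_sub_C_ne_zero z (hj (h0.trans (map_zero j).symm))

/-- the valuation of a polynomial at a place above `X = z` -/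
theorem s52c_val_poly (hA : s52c_IsPlace j z A) {q : k[X]} (hq : q ≠ 0) :
    A.valuation (j q) = A.valuation (j (X - C z)) ^ (q.rootMultiplicity z) := by
  obtain ⟨r, hr, hnd⟩ := exists_eq_pow_rootMultiplicity_mul_and_not_dvd q hq z
  have hrz : r.eval z ≠ 0 := by
    intro h0
    exact hnd (dvd_iff_isRoot.mpr h0)
  nth_rewrite 1 [hr]
  rw [map_mul, map_pow, map_mul, map_pow, hA.2.2 r hrz, mul_one]

/-- a polynomial vanishing at `z` has valuation `< 1` -/
theorem s52c_val_lt_one_of_root (hA : s52c_IsPlace j z A) {q : k[X]} (hq : q.eval z = 0) :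
    A.valuation (j q) < 1 := by
  obtain ⟨r, rfl⟩ := dvd_iff_isRoot.mpr hq
  rw [map_mul, map_mul]
  have hr : A.valuation (j r) ≤ 1 := (A.valuation_le_one_iff _).mpr (hA.1 r)
  calc A.valuation (j (X - C z)) * A.valuation (j r)
      ≤ A.valuation (j (X - C z)) * 1 := by gcongr
    _ = A.valuation (j (X - C z)) := mul_one _
    _ < 1 := hA.2.1

/-- `v (j q) ≤ π ^ n ⟹ (X - z) ^ n ∣ q` -/
theorem s52c_dvd_of_val_le (hj : Function.Injective j) (hA : s52c_IsPlace j z A) (q : k[X])
    (n : ℕ) (h : A.valuation (j q) ≤ A.valuation (j (X - C z)) ^ n) : (X - C z) ^ n ∣ q := by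
  by_cases hq : q = 0
  · rw [hq]; exact dvd_zero _
  · rw [s52c_val_poly hA hq,
      pow_le_pow_iff_right_of_lt_one₀ (s52c_pi_pos hj) hA.2.1] at h
    exact (pow_dvd_pow _ h).trans (pow_rootMultiplicity_dvd q z)

/-- an element `j g / j h` of valuation `< 1` has valuation `≤ π` -/
theorem s52c_val_frac_le (hj : Function.Injective j) (hA : s52c_IsPlace j z A) {g h : k[X]}
    (hg : g ≠ 0) (hh : h ≠ 0) (hlt : A.valuation (j g / j h) < 1) :
    A.valuation (j g / j h) ≤ A.valuation (j (X - C z)) := by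
  have hpos := s52c_pi_pos (A := A) (z := z) hj
  have hne : A.valuation (j (X - C z)) ≠ 0 := ne_of_gt hpos
  rw [map_div₀, s52c_val_poly hA hg, s52c_val_poly hA hh] at hlt ⊢
  set π := A.valuation (j (X - C z)) with hπ
  set m₁ := g.rootMultiplicity z
  set m₂ := h.rootMultiplicity z
  have hpow2 : π ^ m₂ ≠ 0 := pow_ne_zero _ hne
  have hlt' : π ^ m₁ < π ^ m₂ := by
    have := (div_lt_one₀ (zero_lt_iff.mpr hpow2)).mp hlt
    exact this
  have hm : m₂ < m₁ := by
    by_contra hcon
    push Not at hcon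
    have : π ^ m₂ ≤ π ^ m₁ := (pow_le_pow_iff_right_of_lt_one₀ hpos hA.2.1).mpr hcon
    exact absurd hlt' (not_lt.mpr this)
  have h1 : π ^ m₁ = π ^ m₂ * π ^ (m₁ - m₂) := by
    rw [← pow_add]; congr 1; omega
  rw [h1, mul_comm, mul_div_assoc, div_self hpow2, mul_one]
  calc π ^ (m₁ - m₂) ≤ π ^ 1 :=
        (pow_le_pow_iff_right_of_lt_one₀ hpos hA.2.1).mpr (by omega)
    _ = π := pow_one π

end Place

end Fermat.Agent.S52
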