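/-
S52 (the 3–5 switch), node [COP] (helper10), file 2: THE LOCAL STEP.

`k` a field of characteristic `0`, `a, b ∈ k[X]`, `E : y² = x³ + a x + b` over `F = k(X)` with all
25 points of `E[5]` rational over `F`.  If `a = lam⁴ a'`, `b = lam⁶ b'` and `a'(z) = b'(z) = 0`
then `(X - z)⁴ ∣ a'` and `(X - z)⁶ ∣ b'` (`s52c_local`): the scaling is not minimal at `z`.

Proof: a place `A` of `Ω = algebraic closure of F` above `X = z` (`s52c_exists_place`); all points
of `E(Ω)[5]` come from `E(F)` (count: `ld_card_torsion`); [NOS-5] (`s52n_main`) gives `c ∈ F` with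
`(a / c⁴, b / c⁶)` integral and not both in the maximal ideal of `A`; `c' := c / lam` has valuation
`< 1`, hence `≤ π = v(X - z)` (valuations of elements of `F` are integral powers of `π`), so
`v(a') ≤ π⁴` and `v(b') ≤ π⁶`.  Prefix `s52c_`.
-/
import Mathlib
import Fermat.Agent.S52.COP.Place
import Fermat.Agent.S52.NOS.Main

set_option autoImplicit false

namespace Fermat.Agent.S52

open Polynomial WeierstrassCurve WeierstrassCurve.Affine Fermat.Agent.S13
open scoped WeierstrassCurve.Affine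

/-- all points of order `5` of `W` (over `Ω`) have coordinates in the subfield `K'` -/
def s52c_Rat {Ω : Type*} [Field Ω] [DecidableEq Ω] (K' : Subfield Ω) (W : Affine Ω) : Prop :=
  ∀ P : W.Point, 5 • P = 0 → ∀ (x y : Ω) (h : W.Nonsingular x y), P = Point.some x y h →
    x ∈ K' ∧ y ∈ K'

/-- **count ⟹ rationality**: if `W'(F)` has (at least) 25 points killed by `5`, all points of
`W'(Ω)[5]`, `Ω ⊇ F` algebraically closed of characteristic `0`, are `F`-rational. -/
theorem s52c_rat_of_card {R F Ω : Type*} [CommRing R] [Field F] [Field Ω] [Algebra R F]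
    [Algebra R Ω] [Algebra F Ω] [IsScalarTower R F Ω] [DecidableEq F] [DecidableEq Ω]
    [IsAlgClosed Ω] [CharZero Ω] (W' : Affine R) (hΔ : (W'⁄Ω).Δ ≠ 0)
    (h25 : 25 ≤ Nat.card {P : (W'⁄F).Point // 5 • P = 0}) :
    s52c_Rat (algebraMap F Ω).fieldRange (W'⁄Ω) := by
  set f : F →ₐ[R] Ω := IsScalarTower.toAlgHom R F Ω with hf
  have hcard : Nat.card {Q : (W'⁄Ω).Point // 5 • Q = 0} = 25 := by
    have := ld_card_torsion (W'⁄Ω) hΔ (n := 5) (by decide)
    simpa using this
  have hfin : Finite {Q : (W'⁄Ω).Point // 5 • Q = 0} :=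
    Nat.finite_of_card_ne_zero (by rw [hcard]; norm_num)
  let φ : {P : (W'⁄F).Point // 5 • P = 0} → {Q : (W'⁄Ω).Point // 5 • Q = 0} :=
    fun P => ⟨Point.map f P.1, by rw [← map_nsmul, P.2, map_zero]⟩
  have hinj : Function.Injective φ := by
    intro P Q hPQ
    apply Subtype.ext
    apply Point.map_injective f
    exact congrArg Subtype.val hPQ
  have hbij : Function.Bijective φ :=
    hinj.bijective_of_nat_card_le (by rw [hcard]; exact h25)
  intro P hP x y h hPxy
  obtain ⟨⟨P₀, hP₀⟩, hφ⟩ := hbij.2 ⟨P, hP⟩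
  have hmap : Point.map f P₀ = P := congrArg Subtype.val hφ
  rcases P₀ with _ | ⟨x₀, y₀, h₀⟩
  · rw [hPxy] at hmap
    exact absurd hmap.symm (Point.some_ne_zero h)
  · rw [Point.map_some, hPxy] at hmap
    obtain ⟨hx, hy⟩ := Point.some.inj hmap
    exact ⟨⟨x₀, hx⟩, ⟨y₀, hy⟩⟩

/-- the local step, inside a given algebraically closed extension `Ω` of `k(X)` -/
theorem s52c_local_aux {k : Type*} [Field k] [CharZero k] [DecidableEq (RatFunc k)]
    {Ω : Type*} [Field Ω] [DecidableEq Ω] [IsAlgClosed Ω] [CharZero Ω] [Algebra (RatFunc k) Ω]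
    [Algebra k[X] Ω] [IsScalarTower k[X] (RatFunc k) Ω]
    (a b lam a' b' : k[X]) (hlam : lam ≠ 0) (ha : a = lam ^ 4 * a') (hb : b = lam ^ 6 * b')
    (hΔ : 4 * a ^ 3 + 27 * b ^ 2 ≠ 0)
    (h25 : 25 ≤ Nat.card {P : ((s52n_short a b)⁄(RatFunc k)).Point // 5 • P = 0})
    (z : k) (haz : a'.eval z = 0) (hbz : b'.eval z = 0) :
    (X - C z) ^ 4 ∣ a' ∧ (X - C z) ^ 6 ∣ b' := by
  set j : k[X] →+* Ω := algebraMap k[X] Ω with hjdef
  have hjcomp : ∀ q : k[X], j q = algebraMap (RatFunc k) Ω (algebraMap k[X] (RatFunc k) q) :=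
    fun q => IsScalarTower.algebraMap_apply k[X] (RatFunc k) Ω q
  have hj : Function.Injective j := by
    intro p q hpq
    rw [hjcomp, hjcomp] at hpq
    exact RatFunc.algebraMap_injective k ((algebraMap (RatFunc k) Ω).injective hpq)
  obtain ⟨A, hA⟩ := s52c_exists_place j hj z
  have hπpos := s52c_pi_pos (A := A) (z := z) hj
  -- `30` is a unit
  have h30 : A.valuation (30 : Ω) = 1 := by
    have h1 : (30 : Ω) = j (30 : k[X]) := (map_ofNat j 30).symm
    rw [h1]
    apply hA.2.2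
    rw [eval_ofNat]
    norm_num
  -- the curve over `Ω`
  have hW : ((s52n_short a b)⁄Ω) = s52n_short (j a) (j b) := s52n_short_map a b _
  have hΔΩ : 4 * (j a) ^ 3 + 27 * (j b) ^ 2 ≠ 0 := by
    have h1 : 4 * (j a) ^ 3 + 27 * (j b) ^ 2 = j (4 * a ^ 3 + 27 * b ^ 2) := by
      simp only [map_add, map_mul, map_pow, map_ofNat]
    rw [h1]
    exact fun h0 => hΔ (hj (h0.trans (map_zero j).symm))
  have hΔW : ((s52n_short a b)⁄Ω).Δ ≠ 0 := by
    rw [hW, s52n_short_Δ]
    exact mul_ne_zero (by norm_num) hΔΩ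
  have hrat := s52c_rat_of_card (F := RatFunc k) (Ω := Ω) (s52n_short a b) hΔW h25
  rw [hW] at hrat
  obtain ⟨c, hcK, hc0, h4, h6, hor⟩ := s52n_main A h30 (j a) (j b) hΔΩ _ hrat
  -- `c` comes from `F`
  obtain ⟨c₀, rfl⟩ := RingHom.mem_fieldRange.mp hcK
  have hc₀ : c₀ ≠ 0 := by
    rintro rfl
    exact hc0 (map_zero _)
  have hnum : c₀.num ≠ 0 := RatFunc.num_ne_zero hc₀
  have hden : c₀.denom ≠ 0 := RatFunc.denom_ne_zero c₀
  have hc : algebraMap (RatFunc k) Ω c₀ = j c₀.num / j c₀.denom := by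
    rw [hjcomp, hjcomp, ← map_div₀, RatFunc.num_div_denom]
  have hjlam : j lam ≠ 0 := fun h0 => hlam (hj (h0.trans (map_zero j).symm))
  have hjden : j c₀.denom ≠ 0 := fun h0 => hden (hj (h0.trans (map_zero j).symm))
  have hjnum : j c₀.num ≠ 0 := fun h0 => hnum (hj (h0.trans (map_zero j).symm))
  -- `c' := c / lam`
  have hc'0 : j c₀.num / j (c₀.denom * lam) ≠ 0 := by
    rw [map_mul]
    exact div_ne_zero hjnum (mul_ne_zero hjden hjlam)
  have hcc' : algebraMap (RatFunc k) Ω c₀ = j c₀.num / j (c₀.denom * lam) * j lam := by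
    rw [hc, map_mul]
    field_simp
  have ha4 : j a / (algebraMap (RatFunc k) Ω c₀) ^ 4 =
      j a' / (j c₀.num / j (c₀.denom * lam)) ^ 4 := by
    rw [hcc', ha, map_mul, map_pow, map_mul]
    field_simp
  have hb6 : j b / (algebraMap (RatFunc k) Ω c₀) ^ 6 =
      j b' / (j c₀.num / j (c₀.denom * lam)) ^ 6 := by
    rw [hcc', hb, map_mul, map_pow, map_mul]
    field_simp
  rw [ha4] at h4 hor
  rw [hb6] at h6 hor
  set w := A.valuation (j c₀.num / j (c₀.denom * lam)) with hw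
  have hw0 : w ≠ 0 := (Valuation.ne_zero_iff _).mpr hc'0
  have hwpos : 0 < w := zero_lt_iff.mpr hw0
  have h4' : A.valuation (j a') / w ^ 4 ≤ 1 := by
    rw [hw, ← map_pow, ← map_div₀]; exact h4
  have h6' : A.valuation (j b') / w ^ 6 ≤ 1 := by
    rw [hw, ← map_pow, ← map_div₀]; exact h6
  have hor' : A.valuation (j a') / w ^ 4 = 1 ∨ A.valuation (j b') / w ^ 6 = 1 := by
    rcases hor with h | h
    · left; rw [hw, ← map_pow, ← map_div₀]; exact h
    · right; rw [hw, ← map_pow, ← map_div₀]; exact h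
  have ha'lt : A.valuation (j a') < 1 := s52c_val_lt_one_of_root hA haz
  have hb'lt : A.valuation (j b') < 1 := s52c_val_lt_one_of_root hA hbz
  -- `w < 1`
  have hwlt : w < 1 := by
    by_contra hcon
    push Not at hcon
    rcases hor' with h | h
    · rw [div_eq_one_iff_eq (pow_ne_zero _ hw0)] at h
      have : (1 : A.ValueGroup) ≤ w ^ 4 := one_le_pow₀ hcon
      rw [← h] at this
      exact absurd ha'lt (not_lt.mpr this)
    · rw [div_eq_one_iff_eq (pow_ne_zero _ hw0)] at h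
      have : (1 : A.ValueGroup) ≤ w ^ 6 := one_le_pow₀ hcon
      rw [← h] at this
      exact absurd hb'lt (not_lt.mpr this)
  -- `w ≤ π`
  have hwπ : w ≤ A.valuation (j (X - C z)) :=
    s52c_val_frac_le hj hA hnum (mul_ne_zero hden hlam) hwlt
  constructor
  · apply s52c_dvd_of_val_le hj hA a' 4
    calc A.valuation (j a') ≤ w ^ 4 := (div_le_one₀ (pow_pos hwpos 4)).mp h4'
      _ ≤ A.valuation (j (X - C z)) ^ 4 := pow_le_pow_left₀ (le_of_lt hwpos) hwπ 4
  · apply s52c_dvd_of_val_le hj hA b' 6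
    calc A.valuation (j b') ≤ w ^ 6 := (div_le_one₀ (pow_pos hwpos 6)).mp h6'
      _ ≤ A.valuation (j (X - C z)) ^ 6 := pow_le_pow_left₀ (le_of_lt hwpos) hwπ 6

/-- **the local step.** -/
theorem s52c_local {k : Type*} [Field k] [CharZero k] [DecidableEq (RatFunc k)]
    (a b lam a' b' : k[X]) (hlam : lam ≠ 0) (ha : a = lam ^ 4 * a') (hb : b = lam ^ 6 * b')
    (hΔ : 4 * a ^ 3 + 27 * b ^ 2 ≠ 0)
    (h25 : 25 ≤ Nat.card {P : ((s52n_short a b)⁄(RatFunc k)).Point // 5 • P = 0})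
    (z : k) (haz : a'.eval z = 0) (hbz : b'.eval z = 0) :
    (X - C z) ^ 4 ∣ a' ∧ (X - C z) ^ 6 ∣ b' := by
  classical
  exact s52c_local_aux (Ω := AlgebraicClosure (RatFunc k)) a b lam a' b' hlam ha hb hΔ h25 z haz hbz

end Fermat.Agent.S52
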