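/-
S52 (the 3–5 switch), node [COP] (helper10), file 3: COPRIMALITY OF `c₄` AND `Δ` AFTER SCALING.

`a, b ∈ ℚ[X]`, `E : y² = x³ + a x + b` over `F = ℚ̄(X)` with all 25 points of `E[5]` rational
over `F`.  Then `a = lam⁴ a'`, `b = lam⁶ b'` with `a'` coprime to `4 a'³ + 27 b'²`
(`s52c_main`).  This is clause (C) of `s52s_FamilyFF_stmt`, from the same hypothesis as [SPEC].

* `s52c_descent`    : `p ∈ K[X]` irreducible (char `0`), `p(z) = 0`, `(X - z)ⁿ ∣ f` over `L` ⟹
  `pⁿ ∣ f` over `K`;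
* `s52c_exists_max` : a scaling `lam` which cannot be enlarged;
* `s52c_main`       : the coprimality;
* `s52c_main_norm`  : the same with `lam(0) = 1` when `(a(0), b(0)) ≠ (0, 0)`.
Prefix `s52c_`.
-/
import Mathlib
import Fermat.Agent.S52.COP.Local

set_option autoImplicit false

namespace Fermat.Agent.S52

open Polynomial WeierstrassCurve WeierstrassCurve.Affine
open scoped WeierstrassCurve.Affine

section Descent

variable {K L : Type*} [Field K] [Field L] [Algebra K L] [CharZero K]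

/-- **descent of divisibility by powers of a linear factor.** -/
theorem s52c_descent (p : K[X]) (hp : Irreducible p) (z : L) (hz : aeval z p = 0) (n : ℕ) :
    ∀ f : K[X], (X - C z) ^ n ∣ f.map (algebraMap K L) → p ^ n ∣ f := by
  induction n with
  | zero => intro f _; rw [pow_zero]; exact one_dvd f
  | succ n ih =>
    intro f hf
    -- `f(z) = 0`
    have hfz : aeval z f = 0 := by
      rw [← eval_map_algebraMap, ← IsRoot.def, ← dvd_iff_isRoot]
      exact (dvd_pow_self _ (Nat.succ_ne_zero n)).trans hf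
    -- `p ∣ f`
    have hpf : p ∣ f := by
      by_contra hnd
      obtain ⟨u, v, huv⟩ := (Irreducible.coprime_iff_not_dvd hp).mpr hnd
      have := congrArg (aeval z) huv
      rw [map_add, map_mul, map_mul, hz, hfz, mul_zero, mul_zero, add_zero, map_one] at this
      exact zero_ne_one this
    obtain ⟨g, rfl⟩ := hpf
    -- `p` is separable
    have hsep : (p.map (algebraMap K L)).Separable := hp.separable.map
    have hroot : (X - C z) ∣ p.map (algebraMap K L) := by
      rw [dvd_iff_isRoot, IsRoot.def, eval_map_algebraMap]; exact hz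
    obtain ⟨p₁, hp₁⟩ := hroot
    have hnd : ¬ (X - C z) ∣ p₁ := by
      rintro ⟨r, rfl⟩
      have hsq : (X - C z) * (X - C z) ∣ p.map (algebraMap K L) :=
        ⟨r, by rw [hp₁]; ring⟩
      exact not_isUnit_X_sub_C z (hsep.squarefree _ hsq)
    rw [Polynomial.map_mul, hp₁, pow_succ', mul_assoc,
      mul_dvd_mul_iff_left (X_sub_C_ne_zero z)] at hf
    have hg : (X - C z) ^ n ∣ g.map (algebraMap K L) :=
      (prime_X_sub_C z).pow_dvd_of_dvd_mul_left n hnd hf
    obtain ⟨r, rfl⟩ := ih g hg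
    exact ⟨r, by ring⟩

end Descent

section Max

variable {K : Type*} [Field K]

/-- **a maximal scaling**: `a = lam⁴ a'`, `b = lam⁶ b'` and no irreducible `p` has `p⁴ ∣ a'` and
`p⁶ ∣ b'`. -/
theorem s52c_exists_max (a b : K[X]) (hab : a ≠ 0 ∨ b ≠ 0) :
    ∃ lam a' b' : K[X], lam ≠ 0 ∧ a = lam ^ 4 * a' ∧ b = lam ^ 6 * b' ∧
      ∀ p : K[X], Irreducible p → ¬ (p ^ 4 ∣ a' ∧ p ^ 6 ∣ b') := by
  induction hN : a.natDegree + b.natDegree using Nat.strong_induction_on generalizing a b with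
  | _ N ih =>
    by_cases hmax : ∀ p : K[X], Irreducible p → ¬ (p ^ 4 ∣ a ∧ p ^ 6 ∣ b)
    · exact ⟨1, a, b, one_ne_zero, by rw [one_pow, one_mul], by rw [one_pow, one_mul], hmax⟩
    · push Not at hmax
      obtain ⟨p, hp, ⟨a₁, ha₁⟩, ⟨b₁, hb₁⟩⟩ := hmax
      have hp0 : p ≠ 0 := hp.ne_zero
      have hpd : 0 < p.natDegree := hp.natDegree_pos
      have hab₁ : a₁ ≠ 0 ∨ b₁ ≠ 0 := by
        rcases hab with h | h
        · left; rintro rfl; exact h (by rw [ha₁, mul_zero])
        · right; rintro rfl; exact h (by rw [hb₁, mul_zero])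
      have hdeg : a₁.natDegree + b₁.natDegree < N := by
        have h1 : a₁.natDegree ≤ a.natDegree ∧ (a₁ ≠ 0 → a₁.natDegree + 4 ≤ a.natDegree) := by
          by_cases h0 : a₁ = 0
          · exact ⟨by rw [h0, natDegree_zero]; exact Nat.zero_le _, fun h => absurd h0 h⟩
          · have : a.natDegree = 4 * p.natDegree + a₁.natDegree := by
              rw [ha₁, natDegree_mul (pow_ne_zero _ hp0) h0, natDegree_pow]
            exact ⟨by omega, fun _ => by omega⟩
        have h2 : b₁.natDegree ≤ b.natDegree ∧ (b₁ ≠ 0 → b₁.natDegree + 6 ≤ b.natDegree) := by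
          by_cases h0 : b₁ = 0
          · exact ⟨by rw [h0, natDegree_zero]; exact Nat.zero_le _, fun h => absurd h0 h⟩
          · have : b.natDegree = 6 * p.natDegree + b₁.natDegree := by
              rw [hb₁, natDegree_mul (pow_ne_zero _ hp0) h0, natDegree_pow]
            exact ⟨by omega, fun _ => by omega⟩
        rcases hab₁ with h | h
        · have := h1.2 h; omega
        · have := h2.2 h; omega
      obtain ⟨lam₁, a', b', hlam₁, ha', hb', hmax'⟩ := ih _ hdeg a₁ b₁ hab₁ rfl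
      refine ⟨p * lam₁, a', b', mul_ne_zero hp0 hlam₁, ?_, ?_, hmax'⟩
      · rw [ha₁, ha']; ring
      · rw [hb₁, hb']; ring

end Max

section Main

/-- `ℚ[X] → ℚ̄(X)` -/
noncomputable def s52c_iota : ℚ[X] →+* RatFunc (AlgebraicClosure ℚ) :=
  (algebraMap (AlgebraicClosure ℚ)[X] (RatFunc (AlgebraicClosure ℚ))).comp
    (Polynomial.mapRingHom (algebraMap ℚ (AlgebraicClosure ℚ)))

/-- **[COP]: after a maximal scaling, `a'` (i.e. `c₄`) and `4 a'³ + 27 b'²` (i.e. `Δ`) are
coprime**, provided all 25 points of order dividing `5` of `y² = x³ + a x + b` are rational over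
`ℚ̄(X)`. -/
theorem s52c_main [DecidableEq (RatFunc (AlgebraicClosure ℚ))] (a b : ℚ[X])
    (hΔ : 4 * a ^ 3 + 27 * b ^ 2 ≠ 0)
    (h25 : 25 ≤ Nat.card
      {P : (s52n_short (s52c_iota a) (s52c_iota b)).toAffine.Point // 5 • P = 0}) :
    ∃ lam a' b' : ℚ[X], lam ≠ 0 ∧ a = lam ^ 4 * a' ∧ b = lam ^ 6 * b' ∧
      IsCoprime a' (4 * a' ^ 3 + 27 * b' ^ 2) := by
  have hab : a ≠ 0 ∨ b ≠ 0 := by
    by_contra hcon
    push Not at hcon
    apply hΔ
    rw [hcon.1, hcon.2]
    ring
  obtain ⟨lam, a', b', hlam, ha, hb, hmax⟩ := s52c_exists_max a b hab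
  refine ⟨lam, a', b', hlam, ha, hb, ?_⟩
  apply isCoprime_of_prime_dvd
  · rintro ⟨h1, h2⟩
    rw [h1] at h2
    have hb' : b' = 0 := by
      have h3 : (27 : ℚ[X]) * b' ^ 2 = 0 := by
        rw [← h2]; ring
      rcases mul_eq_zero.mp h3 with h | h
      · exact absurd h (by norm_num)
      · exact pow_eq_zero_iff two_ne_zero |>.mp h
    rcases hab with h | h
    · exact h (by rw [ha, h1, mul_zero])
    · exact h (by rw [hb, hb', mul_zero])
  · intro p hp hpa hpΔ
    -- `p ∣ b'`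
    have hpb : p ∣ b' := by
      have h1 : p ∣ 27 * b' ^ 2 := by
        have : (27 : ℚ[X]) * b' ^ 2 = (4 * a' ^ 3 + 27 * b' ^ 2) - 4 * a' ^ 3 := by ring
        rw [this]
        exact dvd_sub hpΔ (Dvd.dvd.mul_left (dvd_pow hpa three_ne_zero) _)
      rcases hp.dvd_or_dvd h1 with h | h
      · have h27 : IsUnit (27 : ℚ[X]) := by
          have : (27 : ℚ[X]) = C (27 : ℚ) := (map_ofNat C 27).symm
          rw [this]
          exact isUnit_C.mpr (by norm_num)
        exact absurd (isUnit_of_dvd_unit h h27) hp.not_isUnit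
      · exact hp.dvd_of_dvd_pow h
    -- a root of `p`
    have hirr : Irreducible p := hp.irreducible
    obtain ⟨z, hz⟩ := IsAlgClosed.exists_aeval_eq_zero (AlgebraicClosure ℚ) p
      (degree_pos_of_irreducible hirr).ne'
    set φ := algebraMap ℚ (AlgebraicClosure ℚ) with hφ
    have hφinj : Function.Injective (Polynomial.map φ) :=
      Polynomial.map_injective φ φ.injective
    -- the local step over `ℚ̄`
    have hloc := s52c_local (k := AlgebraicClosure ℚ) (a.map φ) (b.map φ) (lam.map φ) (a'.map φ)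
      (b'.map φ) (fun h0 => hlam (hφinj (h0.trans (Polynomial.map_zero φ).symm)))
      (by rw [ha, Polynomial.map_mul, Polynomial.map_pow])
      (by rw [hb, Polynomial.map_mul, Polynomial.map_pow])
      (by
        intro h0
        apply hΔ
        apply hφinj
        rw [Polynomial.map_zero, ← h0]
        simp only [Polynomial.map_add, Polynomial.map_mul, Polynomial.map_pow,
          Polynomial.map_ofNat])
      (by
        have hW : ((s52n_short (a.map φ) (b.map φ))⁄(RatFunc (AlgebraicClosure ℚ))) =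
            s52n_short (s52c_iota a) (s52c_iota b) := s52n_short_map _ _ _
        rw [hW]
        exact h25)
      z
      (by
        obtain ⟨r, rfl⟩ := hpa
        rw [eval_map_algebraMap, map_mul, hz, zero_mul])
      (by
        obtain ⟨r, rfl⟩ := hpb
        rw [eval_map_algebraMap, map_mul, hz, zero_mul])
    exact hmax p hirr ⟨s52c_descent p hirr z hz 4 a' hloc.1, s52c_descent p hirr z hz 6 b' hloc.2⟩

/-- the normalised form: if `(a(0), b(0)) ≠ (0, 0)` the scaling can be chosen with `lam(0) = 1`,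
so that `a'(0) = a(0)` and `b'(0) = b(0)`. -/
theorem s52c_main_norm [DecidableEq (RatFunc (AlgebraicClosure ℚ))] (a b : ℚ[X])
    (hΔ : 4 * a ^ 3 + 27 * b ^ 2 ≠ 0)
    (h25 : 25 ≤ Nat.card
      {P : (s52n_short (s52c_iota a) (s52c_iota b)).toAffine.Point // 5 • P = 0})
    (h0 : a.eval 0 ≠ 0 ∨ b.eval 0 ≠ 0) :
    ∃ lam a' b' : ℚ[X], lam.eval 0 = 1 ∧ a = lam ^ 4 * a' ∧ b = lam ^ 6 * b' ∧
      a'.eval 0 = a.eval 0 ∧ b'.eval 0 = b.eval 0 ∧
      IsCoprime a' (4 * a' ^ 3 + 27 * b' ^ 2) := by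
  obtain ⟨lam, a', b', hlam, ha, hb, hcop⟩ := s52c_main a b hΔ h25
  set c : ℚ := lam.eval 0 with hc
  have hc0 : c ≠ 0 := by
    intro h
    rcases h0 with h1 | h1
    · apply h1; rw [ha, eval_mul, eval_pow, ← hc, h]; ring
    · apply h1; rw [hb, eval_mul, eval_pow, ← hc, h]; ring
  have hCc : C c * C c⁻¹ = (1 : ℚ[X]) := by rw [← C_mul, mul_inv_cancel₀ hc0, C_1]
  have hl : (C c⁻¹ * lam).eval 0 = 1 := by
    rw [eval_mul, eval_C, ← hc, inv_mul_cancel₀ hc0]
  have ha2 : a = (C c⁻¹ * lam) ^ 4 * (C (c ^ 4) * a') := by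
    rw [ha, C_pow]
    linear_combination (-(lam ^ 4 * a') * ((C c * C c⁻¹) ^ 3 + (C c * C c⁻¹) ^ 2 +
      (C c * C c⁻¹) + 1)) * hCc
  have hb2 : b = (C c⁻¹ * lam) ^ 6 * (C (c ^ 6) * b') := by
    rw [hb, C_pow]
    linear_combination (-(lam ^ 6 * b') * ((C c * C c⁻¹) ^ 5 + (C c * C c⁻¹) ^ 4 +
      (C c * C c⁻¹) ^ 3 + (C c * C c⁻¹) ^ 2 + (C c * C c⁻¹) + 1)) * hCc
  refine ⟨C c⁻¹ * lam, C (c ^ 4) * a', C (c ^ 6) * b', hl, ha2, hb2, ?_, ?_, ?_⟩
  · have := congrArg (eval 0) ha2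
    rw [eval_mul, eval_pow, hl, one_pow, one_mul] at this
    exact this.symm
  · have := congrArg (eval 0) hb2
    rw [eval_mul, eval_pow, hl, one_pow, one_mul] at this
    exact this.symm
  · have hu4 : IsUnit (C (c ^ 4) : ℚ[X]) := isUnit_C.mpr (IsUnit.mk0 _ (pow_ne_zero _ hc0))
    have hu12 : IsUnit (C (c ^ 12) : ℚ[X]) := isUnit_C.mpr (IsUnit.mk0 _ (pow_ne_zero _ hc0))
    have h2 : 4 * (C (c ^ 4) * a') ^ 3 + 27 * (C (c ^ 6) * b') ^ 2 =
        C (c ^ 12) * (4 * a' ^ 3 + 27 * b' ^ 2) := by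
      simp only [C_pow]
      ring
    rw [h2, isCoprime_mul_unit_left_left hu4, isCoprime_mul_unit_left_right hu12]
    exact hcop

end Main

end Fermat.Agent.S52
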