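/-
S52 (the 3–5 switch), node [COP] (helper10), file 5: THE LOCAL STEP IN ROOT-MULTIPLICITY FORM,
for an arbitrary embedding `j : k[X] →+* Ω` (no `RatFunc` inside): the form needed by [MIN]
(`s52u_LocalGood`).

`k` a field of characteristic `0`, `Ω` algebraically closed of characteristic `0`,
`j : k[X] →+* Ω` injective, `K' ⊆ Ω` a subfield all of whose elements are quotients `j g / j h`,
`E : y² = x³ + aΩ x + bΩ` over `Ω` with all points of `E[5]` rational over `K'`
(`s52c_Rat K' E`), and `aΩ = L⁴ · j a'`, `bΩ = L⁶ · j b'` with `L ∈ K'ˣ`, `a', b' ∈ k[X] ∖ {0}`.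
Then for every `z : k` there is `n : ℕ` with `4 n ≤ ord_z a'`, `6 n ≤ ord_z b'` and equality in
one of them (`s52c_core`).  Prefix `s52c_`.
-/
import Mathlib
import Fermat.Agent.S52.COP.Local

set_option autoImplicit false

namespace Fermat.Agent.S52

open Polynomial WeierstrassCurve WeierstrassCurve.Affine

section Core

variable {k : Type*} [Field k] [CharZero k] {Ω : Type*} [Field Ω] [DecidableEq Ω] [IsAlgClosed Ω]
  [CharZero Ω]

omit [CharZero k] [DecidableEq Ω] [IsAlgClosed Ω] [CharZero Ω] in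
/-- the valuation of a quotient `j g / j h` at a place above `X = z` -/
theorem s52c_val_frac {j : k[X] →+* Ω} {z : k} {A : ValuationSubring Ω}
    (hA : s52c_IsPlace j z A) {g h : k[X]} (hg : g ≠ 0) (hh : h ≠ 0) :
    A.valuation (j g / j h) =
      A.valuation (j (X - C z)) ^ (g.rootMultiplicity z) /
        A.valuation (j (X - C z)) ^ (h.rootMultiplicity z) := by
  rw [map_div₀, s52c_val_poly hA hg, s52c_val_poly hA hh]

/-- **the local step, root-multiplicity form.** -/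
theorem s52c_core (j : k[X] →+* Ω) (hj : Function.Injective j) (K' : Subfield Ω)
    (hK' : ∀ c ∈ K', ∃ g h : k[X], h ≠ 0 ∧ c = j g / j h)
    (aΩ bΩ L : Ω) (a' b' : k[X]) (hL : L ∈ K') (hL0 : L ≠ 0)
    (ha : aΩ = L ^ 4 * j a') (hb : bΩ = L ^ 6 * j b')
    (hΔ : 4 * aΩ ^ 3 + 27 * bΩ ^ 2 ≠ 0)
    (hrat : s52c_Rat K' (s52n_short aΩ bΩ))
    (ha' : a' ≠ 0) (hb' : b' ≠ 0) (z : k) :
    ∃ n : ℕ, 4 * n ≤ a'.rootMultiplicity z ∧ 6 * n ≤ b'.rootMultiplicity z ∧
      (a'.rootMultiplicity z = 4 * n ∨ b'.rootMultiplicity z = 6 * n) := by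
  obtain ⟨A, hA⟩ := s52c_exists_place j hj z
  have hπpos := s52c_pi_pos (A := A) (z := z) hj
  have hπlt := hA.2.1
  set π := A.valuation (j (X - C z)) with hπ
  have hπ0 : π ≠ 0 := ne_of_gt hπpos
  have hπ1 : π ≠ 1 := ne_of_lt hπlt
  -- `30` is a unit
  have h30 : A.valuation (30 : Ω) = 1 := by
    have h1 : (30 : Ω) = j (30 : k[X]) := (map_ofNat j 30).symm
    rw [h1]
    apply hA.2.2
    rw [eval_ofNat]
    norm_num
  obtain ⟨c, hcK, hc0, h4, h6, hor⟩ := s52n_main A h30 aΩ bΩ hΔ K' hrat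
  -- `c' := c / L`
  have hc'K : c / L ∈ K' := div_mem hcK hL
  have hc'0 : c / L ≠ 0 := div_ne_zero hc0 hL0
  obtain ⟨g, h, hh, hgh⟩ := hK' _ hc'K
  have hg : g ≠ 0 := by
    rintro rfl
    rw [map_zero, zero_div] at hgh
    exact hc'0 hgh
  have hjh : j h ≠ 0 := fun h0 => hh (hj (h0.trans (map_zero j).symm))
  have hjg : j g ≠ 0 := fun h0 => hg (hj (h0.trans (map_zero j).symm))
  have hcL : c = (j g / j h) * L := by
    rw [← hgh]; field_simp
  have ha4 : aΩ / c ^ 4 = j a' / (j g / j h) ^ 4 := by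
    rw [hcL, ha]; field_simp
  have hb6 : bΩ / c ^ 6 = j b' / (j g / j h) ^ 6 := by
    rw [hcL, hb]; field_simp
  rw [ha4] at h4 hor
  rw [hb6] at h6 hor
  set α := a'.rootMultiplicity z with hα
  set β := b'.rootMultiplicity z with hβ
  set m₁ := g.rootMultiplicity z with hm₁
  set m₂ := h.rootMultiplicity z with hm₂
  have hva : A.valuation (j a' / (j g / j h) ^ 4) = π ^ (α + 4 * m₂) / π ^ (4 * m₁) := by
    rw [map_div₀, map_pow, s52c_val_frac hA hg hh, s52c_val_poly hA ha', div_pow, ← pow_mul,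
      ← pow_mul, div_div_eq_mul_div, ← pow_add, mul_comm m₂ 4, mul_comm m₁ 4]
  have hvb : A.valuation (j b' / (j g / j h) ^ 6) = π ^ (β + 6 * m₂) / π ^ (6 * m₁) := by
    rw [map_div₀, map_pow, s52c_val_frac hA hg hh, s52c_val_poly hA hb', div_pow, ← pow_mul,
      ← pow_mul, div_div_eq_mul_div, ← pow_add, mul_comm m₂ 6, mul_comm m₁ 6]
  rw [hva] at h4 hor
  rw [hvb] at h6 hor
  have e4 : 4 * m₁ ≤ α + 4 * m₂ := by
    rw [div_le_one₀ (pow_pos hπpos _)] at h4
    exact (pow_le_pow_iff_right_of_lt_one₀ hπpos hπlt).mp h4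
  have e6 : 6 * m₁ ≤ β + 6 * m₂ := by
    rw [div_le_one₀ (pow_pos hπpos _)] at h6
    exact (pow_le_pow_iff_right_of_lt_one₀ hπpos hπlt).mp h6
  have eor : α + 4 * m₂ = 4 * m₁ ∨ β + 6 * m₂ = 6 * m₁ := by
    rcases hor with h | h
    · left
      rw [div_eq_one_iff_eq (pow_ne_zero _ hπ0)] at h
      exact pow_right_injective₀ hπpos hπ1 h
    · right
      rw [div_eq_one_iff_eq (pow_ne_zero _ hπ0)] at h
      exact pow_right_injective₀ hπpos hπ1 h
  refine ⟨m₁ - m₂, ?_, ?_, ?_⟩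
  · omega
  · omega
  · omega

end Core

end Fermat.Agent.S52
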