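/-
S52 (the 3–5 switch), node [COP] (helper10), file 6: `s52u_LocalGood` (helper17's
UNIV/Coprime.lean) FROM THE COUNT HYPOTHESIS `h25` — the valuation step of [MIN] in the
vocabulary (V2) `25 ≤ #E(ℚ̄(X))[5]`.

`s52c_localGood` : `a = lam⁴ a'`, `b = lam⁶ b'` in `ℚ[X]`, `a', b' ≠ 0`, all of `E[5]` rational
over `ℚ̄(X)` for `E : y² = x³ + a x + b` ⟹ `s52u_LocalGood a' b'`.
(With `s52u_IsMin a' b'` this gives `IsCoprime a' b'` by `s52u_coprime`; the direct route is
`s52c_main`.)  Prefix `s52c_`.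
-/
import Mathlib
import Fermat.Agent.S52.COP.Core
import Fermat.Agent.S52.COP.Main
import Fermat.Agent.S52.UNIV.Coprime

set_option autoImplicit false

namespace Fermat.Agent.S52

open Polynomial WeierstrassCurve WeierstrassCurve.Affine
open scoped WeierstrassCurve.Affine

/-- the local step in root-multiplicity form over `k(X)`, inside a given algebraically closed
extension `Ω` of `k(X)` -/
theorem s52c_localGood_aux {k : Type*} [Field k] [CharZero k] [DecidableEq (RatFunc k)]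
    {Ω : Type*} [Field Ω] [DecidableEq Ω] [IsAlgClosed Ω] [CharZero Ω] [Algebra (RatFunc k) Ω]
    [Algebra k[X] Ω] [IsScalarTower k[X] (RatFunc k) Ω]
    (a b lam a' b' : k[X]) (hlam : lam ≠ 0) (ha : a = lam ^ 4 * a') (hb : b = lam ^ 6 * b')
    (hΔ : 4 * a ^ 3 + 27 * b ^ 2 ≠ 0)
    (h25 : 25 ≤ Nat.card {P : ((s52n_short a b)⁄(RatFunc k)).Point // 5 • P = 0})
    (ha' : a' ≠ 0) (hb' : b' ≠ 0) (z : k) :
    ∃ n : ℕ, 4 * n ≤ a'.rootMultiplicity z ∧ 6 * n ≤ b'.rootMultiplicity z ∧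
      (a'.rootMultiplicity z = 4 * n ∨ b'.rootMultiplicity z = 6 * n) := by
  set j : k[X] →+* Ω := algebraMap k[X] Ω with hjdef
  have hjcomp : ∀ q : k[X], j q = algebraMap (RatFunc k) Ω (algebraMap k[X] (RatFunc k) q) :=
    fun q => IsScalarTower.algebraMap_apply k[X] (RatFunc k) Ω q
  have hj : Function.Injective j := by
    intro p q hpq
    rw [hjcomp, hjcomp] at hpq
    exact RatFunc.algebraMap_injective k ((algebraMap (RatFunc k) Ω).injective hpq)
  have hW : ((s52n_short a b)⁄Ω) = s52n_short (j a) (j b) := s52n_short_map a b _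
  have hΔΩ : 4 * (j a) ^ 3 + 27 * (j b) ^ 2 ≠ 0 := by
    have h1 : 4 * (j a) ^ 3 + 27 * (j b) ^ 2 = j (4 * a ^ 3 + 27 * b ^ 2) := by
      simp only [map_add, map_mul, map_pow, map_ofNat]
    rw [h1]
    exact fun h0 => hΔ (hj (h0.trans (map_zero j).symm))
  have hΔW : ((s52n_short a b)⁄Ω).Δ ≠ 0 := by
    rw [hW, s52n_short_Δ]
    exact mul_ne_zero (by norm_num) hΔΩ
  have hrat := s52c_rat_of_card (F := RatFunc k) (Ω := Ω) (s52n_short a b) hΔW h25
  rw [hW] at hrat
  have hK' : ∀ c ∈ (algebraMap (RatFunc k) Ω).fieldRange,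
      ∃ g h : k[X], h ≠ 0 ∧ c = j g / j h := by
    intro c hc
    obtain ⟨c₀, rfl⟩ := RingHom.mem_fieldRange.mp hc
    refine ⟨c₀.num, c₀.denom, RatFunc.denom_ne_zero c₀, ?_⟩
    rw [hjcomp, hjcomp, ← map_div₀, RatFunc.num_div_denom]
  have hlam' : j lam ≠ 0 := fun h0 => hlam (hj (h0.trans (map_zero j).symm))
  exact s52c_core j hj _ hK' (j a) (j b) (j lam) a' b'
    (RingHom.mem_fieldRange.mpr ⟨algebraMap k[X] (RatFunc k) lam, (hjcomp _).symm⟩) hlam'
    (by rw [ha, map_mul, map_pow]) (by rw [hb, map_mul, map_pow]) hΔΩ hrat ha' hb' z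

/-- **the valuation step of [MIN]** in the count vocabulary. -/
theorem s52c_localGood [DecidableEq (RatFunc (AlgebraicClosure ℚ))] (a b lam a' b' : ℚ[X])
    (hlam : lam ≠ 0) (ha : a = lam ^ 4 * a') (hb : b = lam ^ 6 * b')
    (hΔ : 4 * a ^ 3 + 27 * b ^ 2 ≠ 0)
    (h25 : 25 ≤ Nat.card
      {P : (s52n_short (s52c_iota a) (s52c_iota b)).toAffine.Point // 5 • P = 0})
    (ha' : a' ≠ 0) (hb' : b' ≠ 0) : s52u_LocalGood a' b' := by
  classical
  intro z
  have hφinj : Function.Injective (Polynomial.map (algebraMap ℚ (AlgebraicClosure ℚ))) :=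
    Polynomial.map_injective _ (algebraMap ℚ (AlgebraicClosure ℚ)).injective
  have hW : ((s52n_short (a.map (algebraMap ℚ (AlgebraicClosure ℚ)))
      (b.map (algebraMap ℚ (AlgebraicClosure ℚ))))⁄(RatFunc (AlgebraicClosure ℚ))) =
      s52n_short (s52c_iota a) (s52c_iota b) := s52n_short_map _ _ _
  exact s52c_localGood_aux (k := AlgebraicClosure ℚ)
    (Ω := AlgebraicClosure (RatFunc (AlgebraicClosure ℚ)))
    (a.map (algebraMap ℚ (AlgebraicClosure ℚ))) (b.map (algebraMap ℚ (AlgebraicClosure ℚ)))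
    (lam.map (algebraMap ℚ (AlgebraicClosure ℚ))) (a'.map (algebraMap ℚ (AlgebraicClosure ℚ)))
    (b'.map (algebraMap ℚ (AlgebraicClosure ℚ)))
    (fun h0 => hlam (hφinj (h0.trans (Polynomial.map_zero _).symm)))
    (by rw [ha, Polynomial.map_mul, Polynomial.map_pow])
    (by rw [hb, Polynomial.map_mul, Polynomial.map_pow])
    (by
      intro h0
      apply hΔ
      apply hφinj
      rw [Polynomial.map_zero, ← h0]
      simp only [Polynomial.map_add, Polynomial.map_mul, Polynomial.map_pow,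
        Polynomial.map_ofNat])
    (by rw [hW]; exact h25)
    (fun h0 => ha' (hφinj (h0.trans (Polynomial.map_zero _).symm)))
    (fun h0 => hb' (hφinj (h0.trans (Polynomial.map_zero _).symm))) z

end Fermat.Agent.S52
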