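/-
S52 (the 3–5 switch), node [COP] (helper10), file 4: THE SCALED FAMILY.

* `s52c_card_twist` : `a = lam⁴ a'`, `b = lam⁶ b'`, `lam ≠ 0` over a field: the curves
  `y² = x³ + a x + b` and `y² = x³ + a' x + b'` have the same number of points killed by `5`
  (`(x, y) ↦ (x / lam², y / lam³)`, `lrvc_map`);
* `s52c_family` : **the output of [COP]**: from `a, b ∈ ℚ[X]` with all of `E[5]` rational over `ℚ̄(X)`
  and `(a(0), b(0)) ≠ (0, 0)`: `a', b' ∈ ℚ[X]` with the same fibre at `0`, the same `j`, still all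
  of `E'[5]` rational over `ℚ̄(X)`, and `a'` coprime to `4 a'³ + 27 b'²`;
* `s52c_coprime_c4c6` : the `(C4, C6) = (-48 a', -864 b')` form `IsCoprime C4 (C4³ - C6²)`.
Prefix `s52c_`.
-/
import Mathlib
import Fermat.Agent.S52.COP.Main

set_option autoImplicit false

namespace Fermat.Agent.S52

open Polynomial WeierstrassCurve WeierstrassCurve.Affine Fermat.Agent.LR

section Twist

variable {F : Type*} [Field F] [DecidableEq F] [CharZero F]

/-- scaling does not change the number of points killed by `5` -/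
theorem s52c_card_twist (a b lam a' b' : F) (hlam : lam ≠ 0) (ha : a = lam ^ 4 * a')
    (hb : b = lam ^ 6 * b') (hΔ : 4 * a ^ 3 + 27 * b ^ 2 ≠ 0) :
    Nat.card {P : (s52n_short a' b').toAffine.Point // 5 • P = 0} =
      Nat.card {P : (s52n_short a b).toAffine.Point // 5 • P = 0} := by
  set C : VariableChange F := s52n_C (Units.mk0 lam hlam) with hCdef
  have hC : C • s52n_short a b = s52n_short a' b' := by
    rw [hCdef, s52n_C_smul]
    congr 1
    · rw [Units.val_inv_eq_inv_val, Units.val_mk0, ha]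
      field_simp
    · rw [Units.val_inv_eq_inv_val, Units.val_mk0, hb]
      field_simp
  have hΔW : (s52n_short a b).toAffine.Δ ≠ 0 := by
    rw [s52n_short_Δ]
    exact mul_ne_zero (by norm_num) hΔ
  have hinj := lrvc_map_injective C (s52n_short a b) hC hΔW
  have hsurj := lrvc_map_surjective C (s52n_short a b) hC hΔW
  symm
  refine Nat.card_congr (Equiv.subtypeEquiv (Equiv.ofBijective _ ⟨hinj, hsurj⟩) fun P => ?_)
  rw [Equiv.ofBijective_apply, ← s52n_map_nsmul]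
  constructor
  · intro h; rw [h, lrvc_map_zero]
  · intro h
    apply hinj
    rw [h, lrvc_map_zero]

end Twist

section Family

/-- **the output of [COP].** -/
theorem s52c_family [DecidableEq (RatFunc (AlgebraicClosure ℚ))] (a b : ℚ[X])
    (hΔ : 4 * a ^ 3 + 27 * b ^ 2 ≠ 0)
    (h25 : 25 ≤ Nat.card
      {P : (s52n_short (s52c_iota a) (s52c_iota b)).toAffine.Point // 5 • P = 0})
    (h0 : a.eval 0 ≠ 0 ∨ b.eval 0 ≠ 0) :
    ∃ a' b' : ℚ[X], a'.eval 0 = a.eval 0 ∧ b'.eval 0 = b.eval 0 ∧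
      IsCoprime a' (4 * a' ^ 3 + 27 * b' ^ 2) ∧ 4 * a' ^ 3 + 27 * b' ^ 2 ≠ 0 ∧
      25 ≤ Nat.card
        {P : (s52n_short (s52c_iota a') (s52c_iota b')).toAffine.Point // 5 • P = 0} ∧
      a' ^ 3 * (4 * a ^ 3 + 27 * b ^ 2) = a ^ 3 * (4 * a' ^ 3 + 27 * b' ^ 2) := by
  obtain ⟨lam, a', b', hl, ha, hb, ha0, hb0, hcop⟩ := s52c_main_norm a b hΔ h25 h0
  have hlam : lam ≠ 0 := by
    rintro rfl
    rw [eval_zero] at hl
    exact zero_ne_one hl
  have hΔeq : 4 * a ^ 3 + 27 * b ^ 2 = lam ^ 12 * (4 * a' ^ 3 + 27 * b' ^ 2) := by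
    rw [ha, hb]; ring
  have hΔ' : 4 * a' ^ 3 + 27 * b' ^ 2 ≠ 0 := by
    intro h
    apply hΔ
    rw [hΔeq, h, mul_zero]
  refine ⟨a', b', ha0, hb0, hcop, hΔ', ?_, ?_⟩
  · have hinj : Function.Injective s52c_iota := by
      have h1 : Function.Injective (Polynomial.mapRingHom (algebraMap ℚ (AlgebraicClosure ℚ))) :=
        Polynomial.map_injective _ (algebraMap ℚ (AlgebraicClosure ℚ)).injective
      exact (RatFunc.algebraMap_injective (AlgebraicClosure ℚ)).comp h1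
    have hl' : s52c_iota lam ≠ 0 := fun h => hlam (hinj (h.trans (map_zero _).symm))
    have hΔι : 4 * (s52c_iota a) ^ 3 + 27 * (s52c_iota b) ^ 2 ≠ 0 := by
      have h1 : 4 * (s52c_iota a) ^ 3 + 27 * (s52c_iota b) ^ 2 =
          s52c_iota (4 * a ^ 3 + 27 * b ^ 2) := by
        simp only [map_add, map_mul, map_pow, map_ofNat]
      rw [h1]
      exact fun h => hΔ (hinj (h.trans (map_zero _).symm))
    rw [s52c_card_twist (s52c_iota a) (s52c_iota b) (s52c_iota lam) (s52c_iota a') (s52c_iota b')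
      hl' (by rw [ha, map_mul, map_pow]) (by rw [hb, map_mul, map_pow]) hΔι]
    exact h25
  · rw [ha, hb]; ring

/-- the `(C4, C6)` form of the coprimality: `C4 = -48 a'`, `C6 = -864 b'`. -/
theorem s52c_coprime_c4c6 (a' b' : ℚ[X]) (h : IsCoprime a' (4 * a' ^ 3 + 27 * b' ^ 2)) :
    IsCoprime (C (-48 : ℚ) * a') ((C (-48 : ℚ) * a') ^ 3 - (C (-864 : ℚ) * b') ^ 2) := by
  have h1 : (C (-48 : ℚ) * a') ^ 3 - (C (-864 : ℚ) * b') ^ 2 =
      C (-27648 : ℚ) * (4 * a' ^ 3 + 27 * b' ^ 2) := by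
    have e1 : (C (-48 : ℚ) : ℚ[X]) ^ 3 = C (-27648 : ℚ) * 4 := by
      rw [← C_pow, show (4 : ℚ[X]) = C (4 : ℚ) from (map_ofNat C 4).symm, ← C_mul]
      norm_num
    have e2 : (C (-864 : ℚ) : ℚ[X]) ^ 2 = - (C (-27648 : ℚ) * 27) := by
      rw [← C_pow, show (27 : ℚ[X]) = C (27 : ℚ) from (map_ofNat C 27).symm, ← C_mul, ← C_neg]
      norm_num
    rw [mul_pow, mul_pow, e1, e2]
    ring
  have hu1 : IsUnit (C (-48 : ℚ) : ℚ[X]) := isUnit_C.mpr (IsUnit.mk0 _ (by norm_num))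
  have hu2 : IsUnit (C (-27648 : ℚ) : ℚ[X]) := isUnit_C.mpr (IsUnit.mk0 _ (by norm_num))
  rw [h1, isCoprime_mul_unit_left_left hu1, isCoprime_mul_unit_left_right hu2]
  exact h

end Family

end Fermat.Agent.S52
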